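import Fermat.Agent.RR7222.AlgClosed
import Fermat.Agent.S24.Modular
import Fermat.Agent.S24.A564.RHAssembly

/-!
# GALREP package GEN, leaf (DEG)+(R) (helper3774): the pole divisor of `j` on `ℚ̄(X₀(N))`

* `jPoleDiv N = (j)_∞`, `jPoleDiv_apply`;
* `degree_jPoleDiv : deg (j)_∞ = [F : ℚ̄(j)] = [SL(2,ℤ) : Γ₀(N)]`;
* `riemann_jPoleDiv : deg (j)_∞ + 1 ≤ l((j)_∞) + genusFF` (Riemann's inequality).

Inputs: helper7222's Riemann library `Fermat.Agent.RR7222` (verbatim copy) and the landed S24 place
theory (`A564.deg_eq_one`, `A564.exists_finset_sum_ord_eq_zero`, `finrank_jBar`).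
-/

set_option autoImplicit false

open ModularCurve AlgebraicCurve IntermediateField
open scoped MatrixGroups

namespace Fermat.Agent.S30.Gen

section generic

universe u

variable {K : Type*} {F : Type u} [Field K] [Field F] [Algebra K F]

/-- Principal divisors exist and have degree zero. -/
theorem hasPrincipalDivisors_gen [IsAlgClosed K] [CharZero K] (x : F) (hx : Transcendental K x)
    [FiniteDimensional K⟮x⟯ F] : HasPrincipalDivisors K F := by
  classical
  refine ⟨fun f _ => ?_⟩
  obtain ⟨T, hT, hsum⟩ := Fermat.Agent.S24.A564.exists_finset_sum_ord_eq_zero x hx f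
  refine ⟨Finsupp.onFinset T (fun v => v.ord f) (fun v hv => by_contra fun h => hv (hT v h)),
    fun v => rfl, ?_⟩
  rw [Divisor.degree, Finsupp.liftAddHom_apply,
    Finsupp.sum_of_support_subset _ Finsupp.support_onFinset_subset _ (fun v _ => by simp)]
  refine Eq.trans (Finset.sum_congr rfl fun v _ => ?_) hsum
  rw [AddMonoidHom.coe_mulRight, Finsupp.onFinset_apply,
    Fermat.Agent.S24.A564.deg_eq_one x hx v, Nat.cast_one]
  exact mul_one _

/-- All residue fields are finite over the constant field. -/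
theorem finiteResidue_gen [IsAlgClosed K] [CharZero K] (x : F) (hx : Transcendental K x)
    [FiniteDimensional K⟮x⟯ F] (v : Place K F) : v.FiniteResidue := by
  refine ⟨Module.finite_of_finrank_pos ?_⟩
  have h := Fermat.Agent.S24.A564.deg_eq_one x hx v
  unfold Place.deg at h
  omega

/-- `deg (x)_∞ = [F : K(x)]`. -/
theorem degree_poleDiv_gen [IsAlgClosed K] [CharZero K] (x : F) (hx : Transcendental K x)
    [FiniteDimensional K⟮x⟯ F] :
    haveI := hasPrincipalDivisors_gen x hx
    Divisor.degree (Fermat.Agent.RR7222.poleDiv (K := K) x) = (Module.finrank K⟮x⟯ F : ℤ) := by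
  have : HasPrincipalDivisors K F := hasPrincipalDivisors_gen x hx
  have : ∀ v : Place K F, v.FiniteResidue := finiteResidue_gen x hx
  exact (Fermat.Agent.RR7222.degree_poleDiv_eq (K := K) x hx).2

/-- Riemann's inequality `deg D + 1 ≤ l(D) + g`, `g = genusFF K F`. -/
theorem riemann_gen [IsAlgClosed K] [CharZero K] (x : F) (hx : Transcendental K x)
    [FiniteDimensional K⟮x⟯ F] (D : Divisor K F) :
    Divisor.degree D + 1 ≤
      (Module.finrank K ↥(riemannRochSpace D) : ℤ) + (genusFF K F : ℤ) := by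
  have : HasPrincipalDivisors K F := hasPrincipalDivisors_gen x hx
  have : ∀ v : Place K F, v.FiniteResidue := finiteResidue_gen x hx
  obtain ⟨-, -, h⟩ := Fermat.Agent.RR7222.riemann_roch_of_transcendental (K := K) x hx D
  have h0 : (0 : ℤ) ≤ (Module.finrank K (H1 D) : ℤ) := Int.natCast_nonneg _
  omega

end generic

open Fermat.Agent.S24

variable (N : ℕ) [NeZero N]

/-- Principal divisors of `ℚ̄(X₀(N))` exist and have degree zero. -/
theorem hasPrincipalDivisors_bar :
    HasPrincipalDivisors (AlgebraicClosure ℚ) ↥(modularFunctionFieldBar N) :=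
  haveI := finiteDimensional_jBar N
  hasPrincipalDivisors_gen (jBar N) (jBar_transcendental N)

/-- The pole divisor `(j)_∞` of `j` on `ℚ̄(X₀(N))`. -/
noncomputable def jPoleDiv : Divisor (AlgebraicClosure ℚ) ↥(modularFunctionFieldBar N) :=
  haveI := hasPrincipalDivisors_bar N
  Fermat.Agent.RR7222.poleDiv (jBar N)

theorem jPoleDiv_apply (v : Place (AlgebraicClosure ℚ) ↥(modularFunctionFieldBar N)) :
    jPoleDiv N v = max 0 (-(v.ord (jBar N))) := rfl

/-- (DEG) -/
theorem degree_jPoleDiv : Divisor.degree (jPoleDiv N) = (Nat.card (Q0 N) : ℤ) := by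
  haveI := finiteDimensional_jBar N
  have h := degree_poleDiv_gen (K := AlgebraicClosure ℚ) (jBar N) (jBar_transcendental N)
  rw [finrank_jBar N] at h
  exact h

/-- (R) Riemann's inequality for `(j)_∞`. -/
theorem riemann_jPoleDiv :
    Divisor.degree (jPoleDiv N) + 1 ≤
      (Module.finrank (AlgebraicClosure ℚ) (riemannRochSpace (jPoleDiv N)) : ℤ)
        + (genusFF (AlgebraicClosure ℚ) ↥(modularFunctionFieldBar N) : ℤ) :=
  haveI := finiteDimensional_jBar N
  riemann_gen (jBar N) (jBar_transcendental N) (jPoleDiv N)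

theorem mem_riemannRochSpace_jPoleDiv_iff (f : ↥(modularFunctionFieldBar N)) :
    f ∈ riemannRochSpace (jPoleDiv N) ↔
      ∀ v : Place (AlgebraicClosure ℚ) ↥(modularFunctionFieldBar N),
        f = 0 ∨ min 0 (v.ord (jBar N)) ≤ v.ord f := by
  rw [mem_riemannRochSpace_iff]
  refine forall_congr' fun v => or_congr Iff.rfl ?_
  rw [jPoleDiv_apply]
  omega

end Fermat.Agent.S30.Gen
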