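import Fermat.Agent.S30.LD7434

/-!
# GALREP package GEN, leaf (M4) (helper3774): `Theta (ℚ̄(X₀(N)))` and `ℂ` are linearly disjoint over `ℚ̄`

Proved by helper7434 (`Fermat/Agent/S30/LD7434.lean`, verbatim copy of origin/helper7434 26e9f08a):
Dedekind independence of the `ψ(N)` embeddings `modAut q ∘ Theta`, `j` transcendental over `ℂ`.
-/

set_option autoImplicit false

open ModularCurve AlgebraicCurve UpperHalfPlane
open scoped MatrixGroups

namespace Fermat.Agent.S30.Gen

open Fermat.Agent.S24

/-- (M4) -/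
theorem theta_linearIndependent (N : ℕ) [NeZero N] {ι : Type} [Fintype ι]
    (v : ι → ↥(modularFunctionFieldBar N)) (hv : LinearIndependent (AlgebraicClosure ℚ) v)
    (c : ι → ℂ) (h : ∑ i, constM N (c i) * Theta N (v i) = 0) : ∀ i, c i = 0 :=
  Fermat.Agent.S30.LD7434.theta_linearIndependent N v hv c h

end Fermat.Agent.S30.Gen
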