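import Fermat.Agent.S24.ModField
import Fermat.Agent.S20.Basic

/-!
# GALREP package GEN, leaf (MF) (helper3774): `g · Δ` is a modular form of weight 12 on `Γ₀(N)`

`g ∈ ModHol N` invariant under `Γ₀(N)` whose translates have a pole of order at most `N` in `q_N`
at `i∞` (i.e. at most a simple pole in `q`): then `g Δ ∈ M₁₂(Γ₀(N))`.
-/

set_option autoImplicit false

open UpperHalfPlane Filter Topology ModularForm
open scoped MatrixGroups Manifold

namespace Fermat.Agent.S30.Gen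

open Fermat.Agent.S24

local notation "𝕢" => Function.Periodic.qParam

theorem qParam_one_eq_pow (N : ℕ) [NeZero N] (τ : ℍ) : 𝕢 1 τ = 𝕢 (N : ℝ) τ ^ N := by
  have hN : (N : ℂ) ≠ 0 := Nat.cast_ne_zero.mpr (NeZero.ne N)
  rw [Function.Periodic.qParam, Function.Periodic.qParam, ← Complex.exp_nat_mul]
  congr 1
  push_cast
  field_simp

/-- boundedness of `h · Δ` at `i∞` for `h ∈ ModHol N` with `ordInf h ≤ exp N` -/
theorem isBoundedAtImInfty_mul_discriminant (N : ℕ) [NeZero N] (h : ModHol N)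
    (hbd : ordInf N (algebraMap (ModHol N) (ModMer N) h) ≤ WithZero.exp (N : ℤ)) :
    IsBoundedAtImInfty (fun τ : ℍ => h.1 τ * ModularForm.discriminant τ) := by
  rcases eq_or_ne h 0 with rfl | h0
  · have : (fun τ : ℍ => (0 : ModHol N).1 τ * ModularForm.discriminant τ) = 0 := by
      funext τ
      show (0 : ℂ) * _ = 0
      rw [zero_mul]
    rw [this]
    exact zero_form_isBoundedAtImInfty
  have hc0 : modHolToHolCusp N h ≠ 0 := fun hz =>
    h0 ((map_eq_zero_iff _ (modHolToHolCusp_injective N)).mp hz)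
  obtain ⟨n, c, hlead⟩ := B2C.HolCusp.exists_leading (modHolToHolCusp N h) hc0
  have hord : ordInf N (algebraMap (ModHol N) (ModMer N) h) = WithZero.exp (-n) := by
    show B2C.cuspValFrac N (modMerToMerCusp N (algebraMap (ModHol N) (ModMer N) h)) = _
    rw [modMerToMerCusp_algebraMap]
    exact B2C.cuspValFrac_eq_of_leading hlead
  rw [hord, WithZero.exp_le_exp] at hbd
  have hnN : 0 ≤ n + N := by omega
  obtain ⟨m, hm⟩ : ∃ m : ℕ, n + N = m := ⟨(n + N).toNat, (Int.toNat_of_nonneg hnN).symm⟩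
  have h1 : Tendsto (fun τ : ℍ => 𝕢 (N : ℝ) τ ^ (-n) * h.1 τ) atImInfty (𝓝 c) := hlead.2
  have h2 := L1JAux.tendsto_discriminant_div_q
  have h3 : IsBoundedAtImInfty (fun τ : ℍ => 𝕢 (N : ℝ) τ ^ m) := B2C.isBoundedAtImInfty_qParam_pow N m
  have h4 : IsBoundedAtImInfty (fun τ : ℍ => (𝕢 (N : ℝ) τ ^ (-n) * h.1 τ) *
      (ModularForm.discriminant τ / 𝕢 1 τ)) := by
    have := h1.mul h2
    exact this.isBigO_one ℝ
  have h5 := h3.mul h4
  have heq : (fun τ : ℍ => h.1 τ * ModularForm.discriminant τ)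
      = (fun τ : ℍ => 𝕢 (N : ℝ) τ ^ m) * (fun τ : ℍ => (𝕢 (N : ℝ) τ ^ (-n) * h.1 τ) *
      (ModularForm.discriminant τ / 𝕢 1 τ)) := by
    funext τ
    have hq : 𝕢 (N : ℝ) τ ≠ 0 := Function.Periodic.qParam_ne_zero (τ : ℂ)
    have hq1 : 𝕢 1 τ = 𝕢 (N : ℝ) τ ^ (N : ℤ) := by
      rw [zpow_natCast]
      exact qParam_one_eq_pow N τ
    have hm' : 𝕢 (N : ℝ) τ ^ m = 𝕢 (N : ℝ) τ ^ (n + N) := by
      rw [hm, zpow_natCast]
    simp only [Pi.mul_apply]
    rw [hm', hq1, zpow_add₀ hq, zpow_neg]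
    field_simp
  rw [heq]
  exact h5

/-- (MF) -/
theorem exists_modularForm_twelve (N : ℕ) [NeZero N] (g : ModHol N)
    (hinv : ∀ γ ∈ CongruenceSubgroup.Gamma0 N, modHolAut N γ g = g)
    (hbd : ∀ σ : SL(2, ℤ),
      ordInf N (algebraMap (ModHol N) (ModMer N) (modHolAut N σ g)) ≤ WithZero.exp (N : ℤ)) :
    ∃ G : ModularForm (Fermat.Agent.S20.G0 N) 12,
      ∀ τ : ℍ, G τ = g.1 τ * ModularForm.discriminant τ := by
  have hΔ : ∀ γ : SL(2, ℤ), (ModularForm.discriminant : ℍ → ℂ) ∣[(12 : ℤ)] γ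
      = ModularForm.discriminant := fun γ =>
    Fermat.Agent.S20.levelOne_slash CuspForm.discriminant γ
  have hslash : ∀ γ : SL(2, ℤ),
      (fun τ : ℍ => g.1 τ * ModularForm.discriminant τ) ∣[(12 : ℤ)] γ
        = fun τ : ℍ => (modHolAut N γ⁻¹ g).1 τ * ModularForm.discriminant τ := by
    intro γ
    funext τ
    have h1 := congrFun (hΔ γ) τ
    rw [SL_slash_apply] at h1
    rw [SL_slash_apply, modHolAut_apply, inv_inv, mul_assoc, h1]
  refine ⟨Fermat.Agent.S20.mkMF N 12 (fun τ : ℍ => g.1 τ * ModularForm.discriminant τ)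
    (g.2.1.mul CuspForm.discriminant.holo') ?_ ?_, fun τ => rfl⟩
  · intro γ hγ
    rw [hslash, hinv γ⁻¹ (inv_mem hγ)]
  · intro γ
    rw [hslash]
    exact isBoundedAtImInfty_mul_discriminant N _ (hbd γ⁻¹)

end Fermat.Agent.S30.Gen
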