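import Fermat.Agent.S24.ModField

/-!
# GALREP package GEN, leaf (H): elements of `ModMer N` without poles on `ℍ` are holomorphic

Statement = the frozen leaf `exists_modHol_of_ordAt_le_one` of the GEN skeleton of helper3774
(`origin/helper3774:Fermat/Agent/S30/Gen/Hol.lean`); proof by helper5921.

`φ = a / b` with `a, b ∈ ModHol N`; if `ord_τ a ≥ ord_τ b` for all `τ` the quotient extends to a
holomorphic function `g` on `ℍ` (Mathlib's meromorphic normal form); the translates of `g` are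
`N`-periodic (identity theorem) and of moderate growth (`b ∘ γ ~ c q_N^v` with `c ≠ 0`:
`B2C.exists_hasCuspLeading`).
-/

set_option autoImplicit false

open UpperHalfPlane Complex Filter
open scoped MatrixGroups Manifold Topology Real

namespace Fermat.Agent.S30.Gen

open Fermat.Agent.S24

namespace Hol5921

/-- Division of holomorphic functions on `ℍ`: if `ord_τ b ≤ ord_τ a` everywhere then `a = g * b`
with `g` holomorphic. -/
theorem exists_mdiff_quot {a b : ℍ → ℂ} (ha : MDiff a) (hb : MDiff b) (hb0 : b ≠ 0)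
    (hord : ∀ τ : ℍ, analyticOrderAt (b ∘ ofComplex) (τ : ℂ)
      ≤ analyticOrderAt (a ∘ ofComplex) (τ : ℂ)) :
    ∃ g : ℍ → ℂ, MDiff g ∧ ∀ τ, g τ * b τ = a τ := by
  set U : Set ℂ := {z : ℂ | 0 < z.im} with hU
  have hUo : IsOpen U := isOpen_lt continuous_const Complex.continuous_im
  set A : ℂ → ℂ := a ∘ ofComplex with hA
  set B : ℂ → ℂ := b ∘ ofComplex with hB
  have hAan : AnalyticOnNhd ℂ A U := (UpperHalfPlane.mdifferentiable_iff.mp ha).analyticOnNhd hUo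
  have hBan : AnalyticOnNhd ℂ B U := (UpperHalfPlane.mdifferentiable_iff.mp hb).analyticOnNhd hUo
  have hBtop : ∀ z ∈ U, analyticOrderAt B z ≠ ⊤ := by
    intro z hz
    exact B2M.analyticOrderAt_ne_top_of_ne_zero ⟨b, hb⟩
      (fun h => hb0 (congrArg Subtype.val h)) ⟨z, hz⟩
  set F : ℂ → ℂ := A * B⁻¹ with hF
  have hFmer : MeromorphicOn F U := fun z hz =>
    (hAan z hz).meromorphicAt.mul (hBan z hz).meromorphicAt.inv
  set G : ℂ → ℂ := toMeromorphicNFOn F U with hG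
  have hGnf : MeromorphicNFOn G U := meromorphicNFOn_toMeromorphicNFOn F U
  have hGan : ∀ z ∈ U, AnalyticAt ℂ G z := by
    intro z hz
    rw [← (hGnf hz).meromorphicOrderAt_nonneg_iff_analyticAt, hG,
      meromorphicOrderAt_toMeromorphicNFOn hFmer hz, hF,
      meromorphicOrderAt_mul (hAan z hz).meromorphicAt (hBan z hz).meromorphicAt.inv,
      meromorphicOrderAt_inv, (hAan z hz).meromorphicOrderAt_eq,
      (hBan z hz).meromorphicOrderAt_eq]
    have h1 : analyticOrderAt B z ≤ analyticOrderAt A z := hord ⟨z, hz⟩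
    obtain ⟨n, hn⟩ := ENat.ne_top_iff_exists.mp (hBtop z hz)
    rw [← hn] at h1 ⊢
    rcases eq_or_ne (analyticOrderAt A z) ⊤ with htop | hfin
    · rw [htop]
      simp
    · obtain ⟨m, hm⟩ := ENat.ne_top_iff_exists.mp hfin
      rw [← hm] at h1 ⊢
      have h2 : n ≤ m := by exact_mod_cast h1
      simp only [ENat.map_natCast]
      have : ((m : ℤ) : WithTop ℤ) + -((n : ℤ) : WithTop ℤ) = (((m : ℤ) - (n : ℤ) : ℤ) : WithTop ℤ) := by
        rw [sub_eq_add_neg]
        rfl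
      rw [this]
      exact_mod_cast (sub_nonneg.mpr (by exact_mod_cast h2) : (0 : ℤ) ≤ (m : ℤ) - n)
  have hGB : ∀ z ∈ U, G z * B z = A z := by
    intro z hz
    have h1 : G =ᶠ[𝓝[≠] z] F := hFmer.toMeromorphicNFOn_eq_self_on_nhdsNE hz
    have h2 : ∀ᶠ w in 𝓝[≠] z, B w ≠ 0 := by
      rcases (hBan z hz).eventually_eq_zero_or_eventually_ne_zero with h | h
      · exact absurd (analyticOrderAt_eq_top.mpr h) (hBtop z hz)
      · exact h
    have h3 : (fun w => G w * B w) =ᶠ[𝓝[≠] z] A := by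
      filter_upwards [h1, h2] with w hw1 hw2
      rw [hw1, hF]
      simp only [Pi.mul_apply, Pi.inv_apply]
      rw [mul_assoc, inv_mul_cancel₀ hw2, mul_one]
    have h4 : (fun w => G w * B w) =ᶠ[𝓝 z] A :=
      (ContinuousAt.eventuallyEq_nhds_iff_eventuallyEq_nhdsNE
        ((hGan z hz).continuousAt.mul (hBan z hz).continuousAt) (hAan z hz).continuousAt).mp h3
    exact h4.self_of_nhds
  refine ⟨fun τ : ℍ => G (τ : ℂ), ?_, fun τ => ?_⟩
  · rw [UpperHalfPlane.mdifferentiable_iff]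
    have hGd : DifferentiableOn ℂ G U := fun z hz => (hGan z hz).differentiableAt.differentiableWithinAt
    refine hGd.congr fun z hz => ?_
    simp only [Function.comp_apply, ofComplex_apply_of_im_pos hz]
  · have h := hGB (τ : ℂ) τ.im_pos
    simpa only [hA, hB, Function.comp_apply, ofComplex_apply] using h

end Hol5921

/-- (H) -/
theorem exists_modHol_of_ordAt_le_one (N : ℕ) [NeZero N] (φ : ModMer N)
    (h : ∀ τ : ℍ, ordAt N τ φ ≤ 1) :
    ∃ g : ModHol N, algebraMap (ModHol N) (ModMer N) g = φ := by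
  obtain ⟨a, b, hb, rfl⟩ := IsFractionRing.div_surjective (A := ModHol N) φ
  have hb0 : b ≠ 0 := nonZeroDivisors.ne_zero hb
  by_cases ha0 : a = 0
  · exact ⟨0, by rw [ha0, map_zero, zero_div]⟩
  have hbfun : b.1 ≠ 0 := fun h0 => hb0 (Subtype.ext h0)
  have hNpos : (0 : ℝ) < N := by exact_mod_cast Nat.pos_of_ne_zero (NeZero.ne N)
  have hord : ∀ τ : ℍ, analyticOrderAt (b.1 ∘ ofComplex) (τ : ℂ)
      ≤ analyticOrderAt (a.1 ∘ ofComplex) (τ : ℂ) := by
    intro τ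
    have h1 := h τ
    rw [map_div₀, ordAt_algebraMap N τ a ha0, ordAt_algebraMap N τ b hb0, ← WithZero.exp_sub,
      ← WithZero.exp_zero, WithZero.exp_le_exp] at h1
    have hat : analyticOrderAt (a.1 ∘ ofComplex) (τ : ℂ) ≠ ⊤ :=
      B2M.analyticOrderAt_ne_top_of_ne_zero ⟨a.1, a.2.1⟩
        (fun h0 => ha0 (Subtype.ext (show a.1 = (0 : ℍ → ℂ) from congrArg Subtype.val h0))) τ
    have hbt : analyticOrderAt (b.1 ∘ ofComplex) (τ : ℂ) ≠ ⊤ :=
      B2M.analyticOrderAt_ne_top_of_ne_zero ⟨b.1, b.2.1⟩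
        (fun h0 => hb0 (Subtype.ext (show b.1 = (0 : ℍ → ℂ) from congrArg Subtype.val h0))) τ
    rw [← Nat.cast_analyticOrderNatAt hat, ← Nat.cast_analyticOrderNatAt hbt]
    have e1 : (fun z : ℂ => a.1 (ofComplex z)) = a.1 ∘ ofComplex := rfl
    have e2 : (fun z : ℂ => b.1 (ofComplex z)) = b.1 ∘ ofComplex := rfl
    rw [e1, e2] at h1
    have h2 : analyticOrderNatAt (b.1 ∘ ofComplex) (τ : ℂ)
        ≤ analyticOrderNatAt (a.1 ∘ ofComplex) (τ : ℂ) := by omega
    exact_mod_cast h2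
  obtain ⟨g, hg, hgb⟩ := Hol5921.exists_mdiff_quot a.2.1 b.2.1 hbfun hord
  refine ⟨⟨g, hg, fun γ => ⟨fun τ => ?_, ?_⟩⟩, ?_⟩
  · -- periodicity of the translates
    set g₁ : ℍ → ℂ := fun τ => g (γ • τ) with hg₁
    have hg₁d : MDiff g₁ := hg.comp (mdifferentiable_smul (B2M.det_mapGL_pos γ))
    set g₂ : ℍ → ℂ := fun τ => g₁ (((N : ℤ) : ℝ) +ᵥ τ) with hg₂
    have hg₂d : MDiff g₂ := B2C.mdifferentiable_comp_vadd hg₁d (N : ℤ)
    set b₁ : ℍ → ℂ := fun τ => b.1 (γ • τ) with hb₁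
    have hb₁d : MDiff b₁ := b.2.1.comp (mdifferentiable_smul (B2M.det_mapGL_pos γ))
    have hcast : (((N : ℤ) : ℝ)) = (N : ℝ) := Int.cast_natCast N
    have hmul : (g₂ - g₁) * b₁ = 0 := by
      funext σ
      simp only [Pi.mul_apply, Pi.sub_apply, Pi.zero_apply, hg₂, hg₁, hb₁, hcast]
      have e1 := hgb (γ • ((N : ℝ) +ᵥ σ))
      have e2 := hgb (γ • σ)
      have e3 := (b.2.2 γ).1 σ
      have e4 := (a.2.2 γ).1 σ
      rw [e3] at e1
      rw [sub_mul, e1, e2, e4, sub_self]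
    rcases (UpperHalfPlane.mul_eq_zero_iff (hg₂d.sub hg₁d) hb₁d).mp hmul with h0 | h0
    · have h1 := congrFun h0 τ
      simp only [Pi.sub_apply, Pi.zero_apply, hg₂, hg₁, hcast] at h1
      exact sub_eq_zero.mp h1
    · exfalso
      apply hbfun
      funext σ
      have h1 := congrFun h0 (γ⁻¹ • σ)
      simpa only [hb₁, smul_inv_smul, Pi.zero_apply] using h1
  · -- moderate growth of the translates
    obtain ⟨C, A₀, M, hC⟩ := (a.2.2 γ).2
    have hbγ : modHolToHolCusp N (modHolAut N γ⁻¹ b) ≠ 0 := by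
      intro h0
      apply hb0
      have h1 : modHolAut N γ⁻¹ b = 0 :=
        modHolToHolCusp_injective N (h0.trans (map_zero _).symm)
      exact (modHolAut N γ⁻¹).injective (h1.trans (map_zero _).symm)
    obtain ⟨n, c, hc0, hlim⟩ := B2C.HolCusp.exists_leading _ hbγ
    have hval : ∀ σ : ℍ, (modHolToHolCusp N (modHolAut N γ⁻¹ b)).1 σ = b.1 (γ • σ) := by
      intro σ
      show b.1 (γ⁻¹⁻¹ • σ) = b.1 (γ • σ)
      rw [inv_inv]
    have hcpos : 0 < ‖c‖ := norm_pos_iff.mpr hc0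
    have hev : ∀ᶠ σ : ℍ in atImInfty,
        ‖c‖ / 2 < ‖Function.Periodic.qParam (N : ℝ) σ ^ (-n) * b.1 (γ • σ)‖ := by
      have h1 : Tendsto (fun σ : ℍ => ‖Function.Periodic.qParam (N : ℝ) σ ^ (-n)
          * (modHolToHolCusp N (modHolAut N γ⁻¹ b)).1 σ‖) atImInfty (𝓝 ‖c‖) := hlim.norm
      have h2 := h1.eventually (lt_mem_nhds (half_lt_self hcpos))
      filter_upwards [h2] with σ hσ
      rwa [hval] at hσ
    obtain ⟨A₁, hA₁⟩ := (UpperHalfPlane.atImInfty_mem _).mp hev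
    refine ⟨2 * |C| / ‖c‖, max A₀ A₁, M + 2 * π * n / N, fun τ hτ => ?_⟩
    have hτ0 : A₀ ≤ τ.im := le_trans (le_max_left _ _) hτ
    have hτ1 : A₁ ≤ τ.im := le_trans (le_max_right _ _) hτ
    have h1 : ‖a.1 (γ • τ)‖ ≤ |C| * Real.exp (M * τ.im) :=
      (hC τ hτ0).trans (mul_le_mul_of_nonneg_right (le_abs_self C) (Real.exp_pos _).le)
    have h2 : ‖c‖ / 2 < ‖Function.Periodic.qParam (N : ℝ) τ ^ (-n) * b.1 (γ • τ)‖ := hA₁ τ hτ1
    have him : (τ : ℂ).im = τ.im := rfl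
    set E : ℝ := Real.exp (n * (-2 * π * τ.im / N)) with hE
    have hEpos : 0 < E := Real.exp_pos _
    have h3 : ‖Function.Periodic.qParam (N : ℝ) τ ^ (-n) * b.1 (γ • τ)‖
        = E⁻¹ * ‖b.1 (γ • τ)‖ := by
      rw [norm_mul, norm_zpow, Function.Periodic.norm_qParam, him, zpow_neg, hE,
        ← Real.rpow_intCast, ← Real.exp_mul, mul_comm (n : ℝ)]
    rw [h3] at h2
    have h4 : ‖c‖ / 2 * E < ‖b.1 (γ • τ)‖ := by
      have := mul_lt_mul_of_pos_right h2 hEpos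
      rwa [mul_comm E⁻¹, mul_assoc, inv_mul_cancel₀ hEpos.ne', mul_one] at this
    have h5 : ‖g (γ • τ)‖ * ‖b.1 (γ • τ)‖ = ‖a.1 (γ • τ)‖ := by
      rw [← norm_mul, hgb]
    have h6 : ‖g (γ • τ)‖ * (‖c‖ / 2 * E) ≤ |C| * Real.exp (M * τ.im) := by
      calc ‖g (γ • τ)‖ * (‖c‖ / 2 * E) ≤ ‖g (γ • τ)‖ * ‖b.1 (γ • τ)‖ :=
            mul_le_mul_of_nonneg_left h4.le (norm_nonneg _)
        _ = ‖a.1 (γ • τ)‖ := h5
        _ ≤ |C| * Real.exp (M * τ.im) := h1
    have h7 : Real.exp ((M + 2 * π * n / N) * τ.im) = Real.exp (M * τ.im) * E⁻¹ := by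
      rw [hE, ← Real.exp_neg, ← Real.exp_add]
      congr 1
      field_simp
    show ‖g (γ • τ)‖ ≤ 2 * |C| / ‖c‖ * Real.exp ((M + 2 * π * n / N) * τ.im)
    rw [h7]
    have h8 : ‖g (γ • τ)‖ ≤ |C| * Real.exp (M * τ.im) / (‖c‖ / 2 * E) :=
      (le_div_iff₀ (by positivity)).mpr h6
    refine h8.trans (le_of_eq ?_)
    field_simp
  · rw [eq_div_iff ((map_ne_zero_iff _ (IsFractionRing.injective (ModHol N) (ModMer N))).mpr hb0),
      ← map_mul]
    congr 1
    exact Subtype.ext (funext hgb)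

end Fermat.Agent.S30.Gen
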