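import Fermat.Agent.S24.Modular

/-!
# GALREP package GEN, leaves (M1), (M3) (helper3774): valuations of `Theta f` on `ℍ` and at the cusps

Only the landed S24 API is used: `Theta N`, `ordAt N τ`, `ordInf N`, `modAut N σ`,
`OP2848.placeOfVal`, `OP2848.exists_log_val_eq`, `OP2848.val_const_le_one`.
-/

set_option autoImplicit false

open ModularCurve AlgebraicCurve UpperHalfPlane
open scoped MatrixGroups

namespace Fermat.Agent.S30.Gen

open Fermat.Agent.S24

variable (N : ℕ) [NeZero N]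

theorem jBar_ne_zero : jBar N ≠ 0 := by
  intro h
  exact (jBar_transcendental N) (h ▸ isAlgebraic_zero)

theorem jdHol_one_ne_zero : jdHol N 1 (one_dvd N) ≠ 0 := by
  intro h
  have h1 := b6_Theta_jBar N
  rw [h, map_zero] at h1
  exact jBar_ne_zero N ((map_eq_zero (Theta N)).mp h1)

/-- (M1) A function of `ℚ̄(X₀(N))` without poles at the places where `j` is finite is sent by
`Theta` to an element of `ModMer N` of non-negative order at every point of `ℍ`. -/
theorem ordAt_Theta_le_one (f : ↥(modularFunctionFieldBar N))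
    (hf : ∀ v : Place (AlgebraicClosure ℚ) ↥(modularFunctionFieldBar N),
      0 ≤ v.ord (jBar N) → 0 ≤ v.ord f) (τ : ℍ) :
    ordAt N τ (Theta N f) ≤ 1 := by
  classical
  rcases eq_or_ne f 0 with rfl | hf0
  · simp
  set u : Valuation ↥(modularFunctionFieldBar N) (WithZero (Multiplicative ℤ)) :=
    (ordAt N τ).comap (Theta N) with hu
  have hK : ∀ a : AlgebraicClosure ℚ,
      u (algebraMap (AlgebraicClosure ℚ) ↥(modularFunctionFieldBar N) a) ≤ 1 :=
    fun a => OP2848.val_const_le_one (ordAt N τ) (Theta N) a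
  by_contra hlt
  have hu_f : 1 < u f := not_le.mp hlt
  have ht0 : f⁻¹ ≠ 0 := inv_ne_zero hf0
  have huf0 : u f ≠ 0 := (Valuation.ne_zero_iff u).mpr hf0
  have ht : u f⁻¹ < 1 := by
    rw [map_inv₀]
    exact inv_lt_one_of_one_lt₀ hu_f
  obtain ⟨d, hd, -, hlog⟩ := OP2848.exists_log_val_eq u hK f⁻¹ ht0 ht
  have hj0 : jBar N ≠ 0 := jBar_ne_zero N
  have huj : u (jBar N) ≤ 1 := by
    show ordAt N τ (Theta N (jBar N)) ≤ 1
    rw [b6_Theta_jBar, ordAt_algebraMap N τ _ (jdHol_one_ne_zero N), ← WithZero.exp_zero,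
      WithZero.exp_le_exp]
    omega
  have h1 := hlog (jBar N) hj0
  have h2 := hlog f hf0
  have hj_ord : 0 ≤ (OP2848.placeOfVal u hK f⁻¹ ht0 ht).ord (jBar N) := by
    have h3 : WithZero.log (u (jBar N)) ≤ 0 := (OP2848.val_le_one_iff_log u hj0).mp huj
    rw [h1] at h3
    by_contra hneg
    have hneg' : (OP2848.placeOfVal u hK f⁻¹ ht0 ht).ord (jBar N) < 0 := not_le.mp hneg
    nlinarith
  have hf_ord := hf _ hj_ord
  have h4 : WithZero.log (u f) ≤ 0 := by
    rw [h2]
    nlinarith [mul_nonneg hd.le hf_ord]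
  exact absurd ((OP2848.val_le_one_iff_log u hf0).mpr h4) (not_le.mpr hu_f)

/-- the order of `j` at the cusp `∞` in the parameter `q_N` is `-N` -/
theorem ordInf_Theta_jBar : ordInf N (Theta N (jBar N)) = WithZero.exp (N : ℤ) := by
  rw [b6_Theta_jBar]
  have hN : (N : ℂ) ≠ 0 := Nat.cast_ne_zero.mpr (NeZero.ne N)
  have h := ordInf_algebraMap N (jdHol N 1 (one_dvd N)) (-(N : ℤ)) 1 one_ne_zero (by
    have hfun : (fun τ : UpperHalfPlane => (jdHol N 1 (one_dvd N)).1 τ *
        Complex.exp (-(2 * Real.pi * Complex.I * ((-(N : ℤ) : ℤ) : ℂ) * τ / N)))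
        = fun τ : UpperHalfPlane => jC τ * Complex.exp (2 * Real.pi * Complex.I * τ) := by
      funext τ
      rw [b6_jdHol_one_apply]
      congr 2
      push_cast
      field_simp
    rw [hfun]
    exact jC_mul_q_tendsto)
  rw [h, neg_neg]

/-- (M3) If the pole orders of `f` at the poles of `j` are bounded by those of `j`, then every
`SL(2,ℤ)`-translate of `Theta f` has a pole of order at most `N` (in `q_N`) at `i∞`. -/
theorem ordInf_modAut_Theta_le (f : ↥(modularFunctionFieldBar N))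
    (hf : ∀ v : Place (AlgebraicClosure ℚ) ↥(modularFunctionFieldBar N),
      v.ord (jBar N) < 0 → v.ord (jBar N) ≤ v.ord f) (σ : SL(2, ℤ)) :
    ordInf N (modAut N σ (Theta N f)) ≤ WithZero.exp (N : ℤ) := by
  classical
  rcases eq_or_ne f 0 with rfl | hf0
  · simp
  set φ : ↥(modularFunctionFieldBar N) →+* ModMer N :=
    ((modAut N σ : ModMer N ≃+* ModMer N) : ModMer N →+* ModMer N).comp (Theta N) with hφ
  set u : Valuation ↥(modularFunctionFieldBar N) (WithZero (Multiplicative ℤ)) :=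
    (ordInf N).comap φ with hu
  have hK : ∀ a : AlgebraicClosure ℚ,
      u (algebraMap (AlgebraicClosure ℚ) ↥(modularFunctionFieldBar N) a) ≤ 1 :=
    fun a => OP2848.val_const_le_one (ordInf N) φ a
  have hNpos : (0 : ℤ) < N := by exact_mod_cast Nat.pos_of_ne_zero (NeZero.ne N)
  have huj : u (jBar N) = WithZero.exp (N : ℤ) := by
    show ordInf N (modAut N σ (Theta N (jBar N))) = _
    have h := b6_hxinv N σ
    rw [b6_act_apply] at h
    rw [h, ordInf_Theta_jBar]
  have hj0 : jBar N ≠ 0 := jBar_ne_zero N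
  have ht0 : (jBar N)⁻¹ ≠ 0 := inv_ne_zero hj0
  have ht : u (jBar N)⁻¹ < 1 := by
    rw [map_inv₀, huj, ← WithZero.exp_neg, ← WithZero.exp_zero, WithZero.exp_lt_exp]
    omega
  obtain ⟨d, hd, -, hlog⟩ := OP2848.exists_log_val_eq u hK (jBar N)⁻¹ ht0 ht
  have h1 := hlog (jBar N) hj0
  rw [huj, WithZero.log_exp] at h1
  have h2 := hlog f hf0
  have hjneg : (OP2848.placeOfVal u hK (jBar N)⁻¹ ht0 ht).ord (jBar N) < 0 := by
    by_contra hnn
    have hnn' : 0 ≤ (OP2848.placeOfVal u hK (jBar N)⁻¹ ht0 ht).ord (jBar N) := not_lt.mp hnn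
    nlinarith [mul_nonneg hd.le hnn']
  have hle := hf _ hjneg
  have huf0 : u f ≠ 0 := (Valuation.ne_zero_iff u).mpr hf0
  show u f ≤ WithZero.exp (N : ℤ)
  rw [← WithZero.log_le_iff_le_exp huf0, h2]
  nlinarith [mul_le_mul_of_nonneg_left hle hd.le]

end Fermat.Agent.S30.Gen
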