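import Fermat.Agent.S30.GenM12
import Fermat.Agent.S30.Gen.Val
import Fermat.Agent.S30.Gen.Hol
import Fermat.Agent.S30.Gen.Form
import Fermat.Agent.S30.Gen.Disjoint
import Fermat.Agent.S30.Gen.Degree

/-!
# GALREP package GEN (helper3774): `genusFF (ℚ̄(X₀(N))) ≥ dim S₂(Γ₀(N))`

Assembly of the leaves: `l((j)_∞) ≤ dim M₁₂(Γ₀(N)) = ψ(N) + 1 - dim S₂(Γ₀(N))` and Riemann's
inequality `deg D + 1 ≤ l(D) + genusFF` for `D = (j)_∞` give `dim S₂ ≤ genusFF`.
-/

set_option autoImplicit false

open ModularCurve AlgebraicCurve UpperHalfPlane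
open scoped MatrixGroups

namespace Fermat.Agent.S30.Gen

open Fermat.Agent.S24

variable (N : ℕ) [NeZero N]

/-- Every `f ∈ L((j)_∞)` gives a modular form `Theta(f) · Δ` of weight 12 on `Γ₀(N)`. -/
theorem exists_form_of_mem (f : ↥(modularFunctionFieldBar N))
    (hf : f ∈ riemannRochSpace (jPoleDiv N)) :
    ∃ (g : ModHol N) (G : ModularForm (Fermat.Agent.S20.G0 N) 12),
      algebraMap (ModHol N) (ModMer N) g = Theta N f ∧
      ∀ τ : ℍ, G τ = g.1 τ * ModularForm.discriminant τ := by
  rw [mem_riemannRochSpace_jPoleDiv_iff] at hf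
  have h1 : ∀ v : Place (AlgebraicClosure ℚ) ↥(modularFunctionFieldBar N),
      0 ≤ v.ord (jBar N) → 0 ≤ v.ord f := by
    intro v hv
    rcases hf v with h | h
    · rw [h, Place.ord_zero]
    · rw [min_eq_left hv] at h
      exact h
  have h3 : ∀ v : Place (AlgebraicClosure ℚ) ↥(modularFunctionFieldBar N),
      v.ord (jBar N) < 0 → v.ord (jBar N) ≤ v.ord f := by
    intro v hv
    rcases hf v with h | h
    · rw [h, Place.ord_zero]
      exact hv.le
    · rw [min_eq_right hv.le] at h
      exact h
  obtain ⟨g, hg⟩ := exists_modHol_of_ordAt_le_one N (Theta N f) (ordAt_Theta_le_one N f h1)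
  have hinj := IsFractionRing.injective (ModHol N) (ModMer N)
  have hinv : ∀ γ ∈ CongruenceSubgroup.Gamma0 N, modHolAut N γ g = g := by
    intro γ hγ
    apply hinj
    rw [← modAut_algebraMap, hg]
    have := b6_hH N γ hγ f
    rwa [b6_act_apply] at this
  have hbd : ∀ σ : SL(2, ℤ),
      ordInf N (algebraMap (ModHol N) (ModMer N) (modHolAut N σ g)) ≤ WithZero.exp (N : ℤ) := by
    intro σ
    rw [← modAut_algebraMap, hg]
    exact ordInf_modAut_Theta_le N f h3 σ
  obtain ⟨G, hG⟩ := exists_modularForm_twelve N g hinv hbd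
  exact ⟨g, G, hg, hG⟩

/-- (M) -/
theorem finrank_riemannRochSpace_jPoleDiv_le :
    Module.finrank (AlgebraicClosure ℚ) (riemannRochSpace (jPoleDiv N))
      ≤ Module.finrank ℂ (ModularForm (Fermat.Agent.S20.G0 N) 12) := by
  classical
  apply Module.finrank_le_of_rank_le
  apply rank_le
  intro s hs
  -- the family in `F`
  have hv : LinearIndependent (AlgebraicClosure ℚ)
      (fun i : s => ((i : ↥(riemannRochSpace (jPoleDiv N))) : ↥(modularFunctionFieldBar N))) := by
    have := hs.map' (riemannRochSpace (jPoleDiv N)).subtype (Submodule.ker_subtype _)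
    exact this
  choose g G hg hG using fun i : s => exists_form_of_mem N
    ((i : ↥(riemannRochSpace (jPoleDiv N))) : ↥(modularFunctionFieldBar N)) (i : ↥(riemannRochSpace (jPoleDiv N))).2
  have hli : LinearIndependent ℂ G := by
    rw [Fintype.linearIndependent_iff]
    intro c hc
    apply theta_linearIndependent N _ hv c
    have hsum : ∑ i : s, constHol N (c i) * g i = 0 := by
      apply Subtype.ext
      funext τ
      have h1 : (∑ i : s, c i • G i) τ = 0 := by rw [hc]; rfl
      have h2 : (∑ i : s, c i • G i) τ = ∑ i : s, c i * (g i).1 τ * ModularForm.discriminant τ := by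
        let ev : ModularForm (Fermat.Agent.S20.G0 N) 12 →ₗ[ℂ] ℂ :=
          { toFun := fun G => G τ, map_add' := fun _ _ => rfl, map_smul' := fun _ _ => rfl }
        show ev (∑ i : s, c i • G i) = _
        rw [map_sum]
        refine Finset.sum_congr rfl fun i _ => ?_
        rw [map_smul]
        show c i • G i τ = _
        rw [hG i, smul_eq_mul, mul_assoc]
      rw [h2, ← Finset.sum_mul] at h1
      have h3 := (mul_eq_zero.mp h1).resolve_right (ModularForm.discriminant_ne_zero τ)
      have h4 : (∑ i : s, constHol N (c i) * g i).1 τ = ∑ i : s, c i * (g i).1 τ := by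
        have h6 : (∑ i : s, constHol N (c i) * g i).1
            = ∑ i : s, (constHol N (c i) * g i).1 := map_sum (ModHol N).subtype _ _
        rw [h6, Finset.sum_apply]
        rfl
      rw [h4, h3]
      rfl
    have := congrArg (algebraMap (ModHol N) (ModMer N)) hsum
    rw [map_sum, map_zero] at this
    rw [← this]
    refine Finset.sum_congr rfl fun i _ => ?_
    rw [map_mul, hg i]
    rfl
  have := hli.fintype_card_le_finrank
  rw [Fintype.card_coe] at this
  exact this

/-- (GEN) -/
theorem genusFF_ge :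
    Module.finrank ℂ (CuspForm (Fermat.Agent.S20.G0 N) 2)
      ≤ genusFF (AlgebraicClosure ℚ) ↥(modularFunctionFieldBar N) := by
  have hR := riemann_jPoleDiv N
  have h1 := finrank_riemannRochSpace_jPoleDiv_le N
  have h2 := finrank_twelve_add N
  have h3 := degree_jPoleDiv N
  have h4 : Nat.card (Fermat.Agent.S20.Q N) = Nat.card (Q0 N) := rfl
  rw [h3] at hR
  omega

end Fermat.Agent.S30.Gen
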